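import Fermat.Agent.H30.CFT.TateIndElem
import Mathlib.RepresentationTheory.Homological.GroupCohomology.Shapiro
import Mathlib.RepresentationTheory.Homological.GroupHomology.Shapiro
import Mathlib.RepresentationTheory.FiniteIndex

/-!
# P-CFT / TATE-IND (row 482): coinduced modules are cohomologically trivial

* `mackeyIso S V`: for a subgroup `S ≤ G`, the restriction to `S` of `Map(G, V)` (right
  translation) is the `S`-module coinduced from the trivial subgroup of `S` by `Map(G/S, V)`.
* `isZero_groupCohomology_funObj`, `isZero_groupHomology_funObj`: Shapiro's lemma gives the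
  vanishing of `Hⁿ(S, Map(G, V))` and `Hₙ(S, Map(G, V))` for `n ≥ 1`.
* `tateTrivial_funObj`: `Map(G, V)` is cohomologically trivial (degrees `0`, `-1` through the
  bridge statements and the elementary computations of `TateIndElem`).
* `shift : BridgeH0Statement → BridgeHm1Statement → ShiftStatement`.
* `leftRegularTrivial : BridgeH0Statement → BridgeHm1Statement → LeftRegularTrivialStatement`.
-/

set_option autoImplicit false

noncomputable section

open CategoryTheory

namespace Fermat.Agent.H30.CFT

open Fermat.Agent.H24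

section Mackey

variable {G : Type} [Group G] (S : Subgroup G) (V : Type) [AddCommGroup V]

/-- The trivial representation of the trivial subgroup of `S` on `Map(G/S, V)`. -/
abbrev botRep : Representation ℤ ↥(⊥ : Subgroup ↥S) (G ⧸ S → V) :=
  Representation.trivial ℤ ↥(⊥ : Subgroup ↥S) (G ⧸ S → V)

/-- Mackey decomposition for the trivial subgroup: `Map(G, V)`, restricted to `S`, is
`Map(S, Map(G/S, V))`. -/
def mackeyLinearEquiv :
    (G → V) ≃ₗ[ℤ] ↥(Representation.coindV (⊥ : Subgroup ↥S).subtype (botRep S V)) where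
  toFun f := ⟨fun s q => f (q.out * (s : G)), by
    intro g h
    have hg : (g : ↥S) = 1 := Subgroup.mem_bot.mp g.2
    simp [hg]⟩
  map_add' f₁ f₂ := by
    ext s q
    rfl
  map_smul' c f := by
    ext s q
    rfl
  invFun F := fun g => F.1 ⟨(cosetRep S g)⁻¹ * g, cosetRep_inv_mul_mem S g⟩ (QuotientGroup.mk g)
  left_inv f := by
    funext g
    simp [cosetRep]
  right_inv F := by
    ext s q
    have h1 : (QuotientGroup.mk (q.out * (s : G)) : G ⧸ S) = q := by
      rw [QuotientGroup.mk_mul_of_mem _ s.2, QuotientGroup.out_eq']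
    have h2 : cosetRep S (q.out * (s : G)) = q.out := by
      unfold cosetRep
      rw [h1]
    simp only [h1, h2]
    have h3 : (⟨(Quotient.out q)⁻¹ * (Quotient.out q * (s : G)),
        by simp⟩ : ↥S) = s := by
      ext
      simp
    rw [h3]

/-- The Mackey decomposition is `S`-equivariant. -/
def mackeyEquiv :
    Representation.Equiv ((funRep G V).comp S.subtype : Representation ℤ ↥S (G → V))
      (Representation.coind (⊥ : Subgroup ↥S).subtype (botRep S V)) :=
  .mk (mackeyLinearEquiv S V) fun s => by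
    ext f t q
    simp only [mackeyLinearEquiv, LinearMap.coe_comp, Function.comp_apply, LinearMap.coe_mk,
      AddHom.coe_mk, MonoidHom.comp_apply, Subgroup.coe_subtype, funRep_apply, mul_assoc]
    rfl

/-- `Map(G, V)` as an object of `Rep ℤ G`. -/
abbrev funObj (G : Type) [Group G] (V : Type) [AddCommGroup V] : Rep ℤ G :=
  Rep.of (funRep G V)

/-- The Mackey isomorphism in `Rep ℤ S`. -/
def mackeyIso :
    Rep.res S.subtype (funObj G V) ≅
      Rep.coind (⊥ : Subgroup ↥S).subtype (Rep.trivial ℤ ↥(⊥ : Subgroup ↥S) (G ⧸ S → V)) :=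
  Rep.mkIso (mackeyEquiv S V)

/-- `Hⁿ⁺¹(S, Map(G, V)) = 0`. -/
theorem isZero_groupCohomology_funObj (n : ℕ) :
    Limits.IsZero (groupCohomology (Rep.res S.subtype (funObj G V)) (n + 1)) := by
  have e1 := (groupCohomology.functor ℤ ↥S (n + 1)).mapIso (mackeyIso S V)
  have e2 := groupCohomology.coindIso
    (Rep.trivial ℤ ↥(⊥ : Subgroup ↥S) (G ⧸ S → V)) (n + 1)
  have h := isZero_groupCohomology_succ_of_subsingleton
    (Rep.trivial ℤ ↥(⊥ : Subgroup ↥S) (G ⧸ S → V)) n
  exact (h.of_iso e2).of_iso e1

/-- `Hₙ₊₁(S, Map(G, V)) = 0` for finite `S`. -/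
theorem isZero_groupHomology_funObj [Finite S] (n : ℕ) :
    Limits.IsZero (groupHomology (Rep.res S.subtype (funObj G V)) (n + 1)) := by
  classical
  have e1 := (groupHomology.functor ℤ ↥S (n + 1)).mapIso (mackeyIso S V)
  have e2 := (groupHomology.functor ℤ ↥S (n + 1)).mapIso
    (Rep.indCoindIso (Rep.trivial ℤ ↥(⊥ : Subgroup ↥S) (G ⧸ S → V)))
  have e3 := groupHomology.indIso (⊥ : Subgroup ↥S)
    (Rep.trivial ℤ ↥(⊥ : Subgroup ↥S) (G ⧸ S → V)) (n + 1)
  have h := isZero_groupHomology_succ_of_subsingleton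
    (Rep.trivial ℤ ↥(⊥ : Subgroup ↥S) (G ⧸ S → V)) n
  exact ((h.of_iso e3).of_iso e2.symm).of_iso e1

end Mackey

section Trivial

variable {G : Type} [Group G] [Fintype G]

/-- Cohomological triviality is invariant under isomorphism. -/
lemma tateTrivial_of_iso {M N : Rep ℤ G} (e : M ≅ N) (h : TateTrivial N) : TateTrivial M := by
  intro q S _
  exact (h q S).of_iso
    ((tateCohomologyFunctor q).mapIso ((Rep.resFunctor S.subtype).mapIso e))

/-- `Map(G, V)` is cohomologically trivial. -/
theorem tateTrivial_funObj (hb0 : BridgeH0Statement) (hbm1 : BridgeHm1Statement)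
    (V : Type) [AddCommGroup V] : TateTrivial (funObj G V) := by
  intro q S _
  rcases lt_trichotomy q (-1) with hq | hq | hq
  · -- `q ≤ -2`: group homology
    obtain ⟨n, hn⟩ : ∃ n : ℕ, q = -(((n + 1 : ℕ) : ℤ) + 1) := ⟨(-q - 2).toNat, by omega⟩
    have e := (TateCohomology.isoGroupHomology (R := ℤ) (G := ↥S) q (n + 1) hn).app
      (Rep.res S.subtype (funObj G V))
    exact (isZero_groupHomology_funObj S V n).of_iso e
  · -- `q = -1`
    subst hq
    exact (hbm1 G (funObj G V) S).mpr (pm1_funRep S)
  · rcases eq_or_lt_of_le (show (0 : ℤ) ≤ q by omega) with hq0 | hq0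
    · -- `q = 0`
      subst hq0
      exact (hb0 G (funObj G V) S).mpr (p0_funRep S)
    · -- `q ≥ 1`: group cohomology
      obtain ⟨n, hn⟩ : ∃ n : ℕ, q = ((n + 1 : ℕ) : ℤ) := ⟨(q - 1).toNat, by omega⟩
      subst hn
      have e := (TateCohomology.isoGroupCohomology (R := ℤ) (G := ↥S) (n + 1)).app
        (Rep.res S.subtype (funObj G V))
      exact (isZero_groupCohomology_funObj S V n).of_iso e

end Trivial

section Shift

/-- An additive map between two `ℤ`-modules (with arbitrary module structures) is linear. -/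
def zlin {A B : Type} [AddCommGroup A] [AddCommGroup B] (hA : Module ℤ A) (hB : Module ℤ B)
    (f : A →+ B) : @LinearMap ℤ ℤ _ _ (RingHom.id ℤ) A B _ _ hA hB :=
  letI := hA
  letI := hB
  { toFun := f
    map_add' := f.map_add
    map_smul' := fun c x => by
      simpa using map_intCast_smul f ℤ ℤ c x }

@[simp]
lemma zlin_apply {A B : Type} [AddCommGroup A] [AddCommGroup B] (hA : Module ℤ A)
    (hB : Module ℤ B) (f : A →+ B) (x : A) :
    @DFunLike.coe (@LinearMap ℤ ℤ _ _ (RingHom.id ℤ) A B _ _ hA hB) A (fun _ => B)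
      (@LinearMap.instFunLike ℤ ℤ A B _ _ _ _ hA hB (RingHom.id ℤ)) (zlin hA hB f) x = f x := rfl

variable {G : Type} [Group G] [Fintype G] (M : Rep ℤ G)

-- the module structure carried by `M` must win over the canonical `ℤ`-module structure
attribute [local instance 2000] Rep.hV2

/-- The additive map `m ↦ (x ↦ x m)`. -/
def shiftInclAdd : M.V →+ (G → M.V) where
  toFun m x := M.ρ x m
  map_zero' := by
    funext x
    simp
  map_add' m m' := by
    funext x
    simp

/-- The additive map `f ↦ ∑ x, x⁻¹ (f x)`. -/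
def shiftProjAdd : (G → M.V) →+ M.V where
  toFun f := ∑ x : G, M.ρ x⁻¹ (f x)
  map_zero' := by simp
  map_add' f f' := by simp [Finset.sum_add_distrib]

/-- The embedding `M → Map(G, M)`, `m ↦ (x ↦ x m)`. -/
def shiftIncl : M ⟶ funObj G M.V :=
  Rep.ofHom (ρ := M.ρ) (σ := funRep G M.V)
    ⟨zlin M.hV2 _ (shiftInclAdd M), fun g => by
      ext m x
      simp [shiftInclAdd]⟩

/-- The projection `Map(G, M) → M`, `f ↦ ∑ x, x⁻¹ (f x)`. -/
def shiftProj : funObj G M.V ⟶ M :=
  Rep.ofHom (ρ := funRep G M.V) (σ := M.ρ)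
    ⟨zlin _ M.hV2 (shiftProjAdd M), fun g => by
      ext f
      simp only [LinearMap.coe_comp, Function.comp_apply, zlin_apply, shiftProjAdd,
        AddMonoidHom.coe_mk, ZeroHom.coe_mk, funRep_apply, map_sum]
      refine Fintype.sum_equiv (Equiv.mulRight g) _ _ fun x => ?_
      simp only [Equiv.coe_mulRight, mul_inv_rev]
      rw [← Module.End.mul_apply, ← map_mul]
      simp⟩

omit [Fintype G] in
lemma shiftIncl_injective : Function.Injective (shiftIncl M).hom := by
  intro m m' h
  have h1 : shiftInclAdd M m = shiftInclAdd M m' := h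
  have h2 := congrFun h1 1
  simpa [shiftInclAdd] using h2

lemma shiftProj_surjective : Function.Surjective (shiftProj M).hom := by
  classical
  intro m
  refine ⟨Pi.single 1 m, ?_⟩
  show shiftProjAdd M (Pi.single 1 m) = m
  simp only [shiftProjAdd, AddMonoidHom.coe_mk, ZeroHom.coe_mk]
  rw [Finset.sum_eq_single 1]
  · simp
  · intro x _ hx
    rw [Pi.single_eq_of_ne hx, map_zero]
  · intro h
    exact absurd (Finset.mem_univ _) h

end Shift

/-- **T-IND** dimension shifting: every module embeds into, and is a quotient of, a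
cohomologically trivial module. -/
theorem shift (hb0 : BridgeH0Statement) (hbm1 : BridgeHm1Statement) : ShiftStatement := by
  intro G _ _ M
  refine ⟨funObj G M.V, shiftIncl M, shiftProj M, ?_, ?_, tateTrivial_funObj hb0 hbm1 M.V⟩
  · exact (Rep.mono_iff_injective _).mpr (shiftIncl_injective M)
  · exact (Rep.epi_iff_surjective _).mpr (shiftProj_surjective M)

section LeftRegular

/-- An additive equivalence between two `ℤ`-modules (with arbitrary module structures) is
linear. -/
def zlinEquiv {A B : Type} [AddCommGroup A] [AddCommGroup B] (hA : Module ℤ A)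
    (hB : Module ℤ B) (e : A ≃+ B) :
    @LinearEquiv ℤ ℤ _ _ (RingHom.id ℤ) (RingHom.id ℤ) _ _ A B _ _ hA hB :=
  letI := hA
  letI := hB
  { e with
    map_smul' := fun c x => by
      simpa using map_intCast_smul e.toAddMonoidHom ℤ ℤ c x }

variable (G : Type) [Group G] [Fintype G]

/-- `ℤ[G] ≃ Map(G, ℤ)`, `F ↦ (x ↦ F x⁻¹)`. -/
def regAddEquiv : MonoidAlgebra ℤ G ≃+ (G → ℤ) :=
  (MonoidAlgebra.coeffAddEquiv (R := ℤ) (M := G)).trans
    ((Finsupp.addEquivFunOnFinite (ι := G) (M := ℤ)).trans
      (AddEquiv.mk' (Equiv.arrowCongr (Equiv.inv G) (Equiv.refl ℤ)) (fun _ _ => rfl)))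

lemma regAddEquiv_apply (F : MonoidAlgebra ℤ G) (x : G) :
    regAddEquiv G F x = F.coeff x⁻¹ := rfl

/-- The regular representation is `Map(G, ℤ)`. -/
def regEquiv : Representation.Equiv (Representation.leftRegular ℤ G) (funRep G ℤ) :=
  .mk (zlinEquiv _ _ (regAddEquiv G)) fun g => by
    classical
    ext h x
    show regAddEquiv G (Representation.leftRegular ℤ G g (MonoidAlgebra.single h 1)) x =
      regAddEquiv G (MonoidAlgebra.single h 1) (x * g)
    rw [regAddEquiv_apply, regAddEquiv_apply, Representation.ofMulAction_single]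
    simp only [MonoidAlgebra.coeff_single, Finsupp.single_apply, smul_eq_mul, mul_inv_rev]
    congr 1
    rw [eq_iff_iff]
    constructor
    · intro h1
      rw [← h1]
      simp
    · intro h1
      rw [h1]
      simp

/-- The regular representation is `Map(G, ℤ)`, in `Rep ℤ G`. -/
def regIso : Rep.leftRegular ℤ G ≅ funObj G ℤ :=
  Rep.mkIso (regEquiv G)

end LeftRegular

/-- **T-REG** the regular representation is cohomologically trivial. -/
theorem leftRegularTrivial (hb0 : BridgeH0Statement) (hbm1 : BridgeHm1Statement) :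
    LeftRegularTrivialStatement := by
  intro G _ _
  exact tateTrivial_of_iso (regIso G) (tateTrivial_funObj hb0 hbm1 ℤ)

end Fermat.Agent.H30.CFT

end
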