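import Fermat.Agent.H97.Shap.Interfaces

/-!
# P-CFT / FR-SHAP, SH-6 (row 611): corestriction on level cohomology   (helper30)

`cores : ShapiroStatement → CoresStatement`.

* `smV 𝒰 A`, `sm 𝒰 A`, `smι 𝒰 A` : the smooth part of a representation;
* `isIso_lvlMap_of_smooth_surj` : a monomorphism of representations hitting every smooth vector
  induces an isomorphism of level complexes;
* `shapiro_all` : Shapiro's lemma for *all* coefficients (the level complex only sees the smooth
  part);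
* `coindUnit`, `coindTrace` : the unit `A → Coind_U Res_U A` and the trace
  `Coind_U Res_U A → A`, `f ↦ ∑_{q ∈ G/U} q • f (q⁻¹)`;
* `cores` : the corestriction `(Hⁿ shapiro)⁻¹ ≫ Hⁿ(trace)`.
-/

set_option autoImplicit false

universe u

open CategoryTheory groupCohomology

namespace Fermat.Agent.H30.CFT

open Fermat.Agent.H13.Cft Fermat.Agent.H97.Shap

variable {k G : Type u} [CommRing k] [Group G]

/-! ### Morphisms inducing isomorphisms of level complexes -/

theorem lvlMap_f_bijective (𝒰 : LevelSys G) {A B : Rep.{u} k G} (φ : A ⟶ B)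
    (hinj : Function.Injective φ.hom)
    (hsurj : ∀ b : B, (∃ N ∈ 𝒰.sets, ∀ s ∈ N, B.ρ s b = b) → ∃ a : A, φ.hom a = b) (n : ℕ) :
    Function.Bijective ((lvlMap 𝒰 φ).f n).hom := by
  constructor
  · intro x y hxy
    apply Subtype.ext
    funext g
    apply hinj
    exact congrArg (fun z => z.1 g) hxy
  · intro c
    obtain ⟨N, hN, hc⟩ := c.2
    have hex : ∀ g : Fin n → G, ∃ a : A, φ.hom a = c.1 g := fun g =>
      hsurj (c.1 g) ⟨N, hN, fun s hs => hc.2 g s hs⟩
    choose c' hc' using hex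
    refine ⟨⟨c', N, hN, fun g u hu => ?_, fun g s hs => ?_⟩, ?_⟩
    · apply hinj
      rw [hc', hc']
      exact hc.1 g u hu
    · apply hinj
      rw [Rep.hom_comm_apply, hc']
      exact hc.2 g s hs
    · apply Subtype.ext
      funext g
      exact hc' g

theorem isIso_lvlMap_of_smooth_surj (𝒰 : LevelSys G) {A B : Rep.{u} k G} (φ : A ⟶ B)
    (hinj : Function.Injective φ.hom)
    (hsurj : ∀ b : B, (∃ N ∈ 𝒰.sets, ∀ s ∈ N, B.ρ s b = b) → ∃ a : A, φ.hom a = b) :
    IsIso (lvlMap 𝒰 φ) := by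
  have : ∀ n, IsIso ((lvlMap 𝒰 φ).f n) := fun n =>
    (ConcreteCategory.isIso_iff_bijective _).2 (lvlMap_f_bijective 𝒰 φ hinj hsurj n)
  exact HomologicalComplex.Hom.isIso_of_components _

/-! ### The smooth part -/

/-- The smooth vectors of a representation. -/
def smV (𝒰 : LevelSys G) (A : Rep.{u} k G) : Submodule k A.V where
  carrier := {a | ∃ N ∈ 𝒰.sets, ∀ s ∈ N, A.ρ s a = a}
  add_mem' := by
    rintro a b ⟨N, hN, ha⟩ ⟨N', hN', hb⟩
    obtain ⟨N'', hN'', hle⟩ := 𝒰.directed N hN N' hN'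
    exact ⟨N'', hN'', fun s hs => by
      rw [map_add, ha s (hle.trans inf_le_left hs), hb s (hle.trans inf_le_right hs)]⟩
  zero_mem' := by
    obtain ⟨N, hN⟩ := 𝒰.nonempty
    exact ⟨N, hN, fun s _ => map_zero _⟩
  smul_mem' := by
    rintro c a ⟨N, hN, ha⟩
    exact ⟨N, hN, fun s hs => by rw [map_smul, ha s hs]⟩

lemma mem_smV {𝒰 : LevelSys G} {A : Rep.{u} k G} {a : A.V} :
    a ∈ smV 𝒰 A ↔ ∃ N ∈ 𝒰.sets, ∀ s ∈ N, A.ρ s a = a := Iff.rfl

lemma smV_le_comap (𝒰 : LevelSys G) (A : Rep.{u} k G) (g : G) :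
    smV 𝒰 A ≤ (smV 𝒰 A).comap (A.ρ g) := by
  rintro a ⟨N, hN, ha⟩
  have hnorm := 𝒰.normal N hN
  refine ⟨N, hN, fun s hs => ?_⟩
  have : A.ρ s (A.ρ g a) = A.ρ g (A.ρ (g⁻¹ * s * g⁻¹⁻¹) a) := by
    rw [← Module.End.mul_apply, ← Module.End.mul_apply, ← map_mul, ← map_mul]
    congr 2
    group
  rw [this, ha _ (hnorm.conj_mem s hs g⁻¹)]

/-- The smooth part of a representation. -/
noncomputable def sm (𝒰 : LevelSys G) (A : Rep.{u} k G) : Rep.{u} k G :=
  Rep.of (A.ρ.subrepresentation (smV 𝒰 A) (smV_le_comap 𝒰 A))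

/-- The inclusion of the smooth part. -/
noncomputable def smι (𝒰 : LevelSys G) (A : Rep.{u} k G) : sm 𝒰 A ⟶ A :=
  Rep.ofHom ⟨(smV 𝒰 A).subtype, fun _ => rfl⟩

lemma smι_injective (𝒰 : LevelSys G) (A : Rep.{u} k G) : Function.Injective (smι 𝒰 A).hom :=
  Subtype.val_injective

lemma isSmooth_sm (𝒰 : LevelSys G) (A : Rep.{u} k G) : IsSmooth 𝒰 (sm 𝒰 A) := by
  rintro ⟨a, N, hN, ha⟩
  exact ⟨N, hN, fun s hs => Subtype.ext (ha s hs)⟩

lemma isIso_lvlMap_smι (𝒰 : LevelSys G) (A : Rep.{u} k G) : IsIso (lvlMap 𝒰 (smι 𝒰 A)) :=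
  isIso_lvlMap_of_smooth_surj 𝒰 _ (smι_injective 𝒰 A) fun b hb => ⟨⟨b, hb⟩, rfl⟩

/-! ### Shapiro's lemma for all coefficients -/

section ShapiroAll

variable (𝒰 : LevelSys G) (U : Subgroup G) (hU : ∃ N ∈ 𝒰.sets, N ≤ U)

lemma isIso_lvlMap_coindMap_smι (A : Rep.{u} k U) :
    IsIso (lvlMap 𝒰 (Rep.coindMap U.subtype (smι (𝒰.restrict U hU) A))) := by
  refine isIso_lvlMap_of_smooth_surj 𝒰 _ ?_ ?_
  · intro x y hxy
    apply Subtype.ext
    funext g
    apply smι_injective (𝒰.restrict U hU) A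
    exact congrArg (fun z => z.1 g) hxy
  · rintro f ⟨N, hN, hf⟩
    obtain ⟨N₀, hN₀, hN₀U⟩ := hU
    obtain ⟨N', hN', hle⟩ := 𝒰.directed N hN N₀ hN₀
    have hnorm := 𝒰.normal N' hN'
    have hN'U : N' ≤ U := (hle.trans inf_le_right).trans hN₀U
    have hval : ∀ x : G, f.1 x ∈ smV (𝒰.restrict U ⟨N₀, hN₀, hN₀U⟩) A := by
      intro x
      refine ⟨_, ⟨N', hN', hN'U, rfl⟩, fun s hs => ?_⟩
      have h1 := f.2 s x
      have h2 : (U.subtype s) * x = x * (x⁻¹ * (s : G) * x⁻¹⁻¹) := by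
        simp only [Subgroup.coe_subtype]
        group
      have h3 := congrArg (fun z => z.1 x)
        (hf (x⁻¹ * (s : G) * x⁻¹⁻¹) (hle.trans inf_le_left (hnorm.conj_mem _ hs x⁻¹)))
      rw [← h1, h2]
      exact h3
    refine ⟨⟨fun x => ⟨f.1 x, hval x⟩, fun u x => Subtype.ext (f.2 u x)⟩, ?_⟩
    apply Subtype.ext
    funext x
    rfl

/-- The Shapiro map is natural in the coefficients. -/
theorem shapiroMap_natural {A B : Rep.{u} k U} (f : A ⟶ B) :
    lvlMap 𝒰 (Rep.coindMap U.subtype f) ≫ shapiroMap 𝒰 U hU B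
      = shapiroMap 𝒰 U hU A ≫ lvlMap (𝒰.restrict U hU) f := by
  ext n x : 3
  rfl

/-- **Shapiro's lemma for all coefficients**: the level complex only sees the smooth part. -/
theorem shapiro_all (hS : ShapiroStatement.{u}) (A : Rep.{u} k U) (n : ℕ) :
    IsIso (HomologicalComplex.homologyMap (shapiroMap 𝒰 U hU A) n) := by
  have h1 := isIso_lvlMap_coindMap_smι 𝒰 U hU A
  have h2 := isIso_lvlMap_smι (𝒰.restrict U hU) A
  have h3 := hS 𝒰 U hU (sm (𝒰.restrict U hU) A) (isSmooth_sm _ A) n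
  have hsq := congrArg (fun φ => HomologicalComplex.homologyMap φ n)
    (shapiroMap_natural 𝒰 U hU (smι (𝒰.restrict U hU) A))
  simp only [HomologicalComplex.homologyMap_comp] at hsq
  have h4 : IsIso (HomologicalComplex.homologyMap
      (lvlMap 𝒰 (Rep.coindMap U.subtype (smι (𝒰.restrict U hU) A))) n ≫
      HomologicalComplex.homologyMap (shapiroMap 𝒰 U hU A) n) := by
    rw [hsq]
    infer_instance
  exact IsIso.of_isIso_comp_left
    (HomologicalComplex.homologyMap
      (lvlMap 𝒰 (Rep.coindMap U.subtype (smι (𝒰.restrict U hU) A))) n) _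

end ShapiroAll

/-! ### The unit and the trace -/

section Trace

variable (U : Subgroup G) (A : Rep.{u} k G)

/-- The unit `A → Coind_U Res_U A`, `a ↦ (g ↦ g • a)`. -/
noncomputable def coindUnit : A ⟶ Rep.coind U.subtype (Rep.res U.subtype A) :=
  Rep.resCoindToHom U.subtype A (Rep.res U.subtype A) (𝟙 _)

@[simp] lemma coindUnit_apply (a : A) (g : G) : ((coindUnit U A).hom a).1 g = A.ρ g a := rfl

/-- `g ↦ g • f (g⁻¹)` as a function on `G ⧸ U`. -/
noncomputable def traceTerm (f : ↥((Rep.res U.subtype A).ρ.coindV U.subtype)) : G ⧸ U → A.V :=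
  Quotient.lift (fun g : G => A.ρ g (f.1 g⁻¹)) (by
    intro a b hab
    have hab' : a⁻¹ * b ∈ U := QuotientGroup.leftRel_apply.1 hab
    have h1 := f.2 ⟨(a⁻¹ * b)⁻¹, U.inv_mem hab'⟩ a⁻¹
    have h2 : U.subtype ⟨(a⁻¹ * b)⁻¹, U.inv_mem hab'⟩ * a⁻¹ = b⁻¹ := by
      simp only [Subgroup.coe_subtype]
      group
    rw [h2] at h1
    show A.ρ a (f.1 a⁻¹) = A.ρ b (f.1 b⁻¹)
    rw [h1]
    show A.ρ a (f.1 a⁻¹) = A.ρ b (A.ρ ((a⁻¹ * b)⁻¹) (f.1 a⁻¹))
    rw [← Module.End.mul_apply, ← map_mul]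
    congr 2
    group)

@[simp] lemma traceTerm_mk (f : ↥((Rep.res U.subtype A).ρ.coindV U.subtype)) (g : G) :
    traceTerm U A f (QuotientGroup.mk g) = A.ρ g (f.1 g⁻¹) := rfl

variable [U.FiniteIndex]

attribute [local instance] Subgroup.fintypeQuotientOfFiniteIndex

/-- The trace `Coind_U Res_U A → A`, `f ↦ ∑_{q ∈ G/U} q • f (q⁻¹)`, as a linear map. -/
noncomputable def coindTraceLin : ↥((Rep.res U.subtype A).ρ.coindV U.subtype) →ₗ[k] A.V where
  toFun f := ∑ q : G ⧸ U, traceTerm U A f q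
  map_add' f f' := by
    rw [← Finset.sum_add_distrib]
    refine Finset.sum_congr rfl fun q _ => ?_
    induction q using QuotientGroup.induction_on with
    | H g => simp
  map_smul' c f := by
    rw [RingHom.id_apply, Finset.smul_sum]
    refine Finset.sum_congr rfl fun q _ => ?_
    induction q using QuotientGroup.induction_on with
    | H g => simp

lemma coindTraceLin_apply (f : ↥((Rep.res U.subtype A).ρ.coindV U.subtype)) :
    coindTraceLin U A f = ∑ q : G ⧸ U, traceTerm U A f q := rfl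

/-- The trace `Coind_U Res_U A → A`. -/
noncomputable def coindTrace : Rep.coind U.subtype (Rep.res U.subtype A) ⟶ A :=
  Rep.ofHom ⟨coindTraceLin U A, fun h => by
    ext f
    show coindTraceLin U A ((Rep.res U.subtype A).ρ.coind U.subtype h f)
      = A.ρ h (coindTraceLin U A f)
    rw [coindTraceLin_apply, coindTraceLin_apply, map_sum]
    refine Fintype.sum_equiv (MulAction.toPerm h⁻¹) _ _ fun q => ?_
    induction q using QuotientGroup.induction_on with
    | H g =>
      show traceTerm U A _ (QuotientGroup.mk g)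
        = A.ρ h (traceTerm U A f (QuotientGroup.mk (h⁻¹ * g)))
      rw [traceTerm_mk, traceTerm_mk]
      show A.ρ g (f.1 (g⁻¹ * h)) = A.ρ h (A.ρ (h⁻¹ * g) (f.1 (h⁻¹ * g)⁻¹))
      rw [← Module.End.mul_apply, ← map_mul]
      congr 2
      · group
      · group⟩

lemma coindTrace_apply (f : ↥((Rep.res U.subtype A).ρ.coindV U.subtype)) :
    (coindTrace U A).hom f = ∑ q : G ⧸ U, traceTerm U A f q := rfl

lemma coindTrace_coindUnit (a : A) :
    (coindTrace U A).hom ((coindUnit U A).hom a) = U.index • a := by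
  rw [coindTrace_apply]
  have : ∀ q : G ⧸ U, traceTerm U A ((coindUnit U A).hom a) q = a := by
    intro q
    induction q using QuotientGroup.induction_on with
    | H g =>
      rw [traceTerm_mk, coindUnit_apply, ← Module.End.mul_apply, ← map_mul, mul_inv_cancel,
        map_one, Module.End.one_apply]
  rw [Finset.sum_congr rfl fun q _ => this q, Finset.sum_const, Finset.card_univ,
    Subgroup.index_eq_card, Nat.card_eq_fintype_card]

/-- The trace is natural. -/
lemma coindTrace_natural {A B : Rep.{u} k G} (φ : A ⟶ B) :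
    coindTrace U A ≫ φ
      = Rep.coindMap U.subtype ((Rep.resFunctor U.subtype).map φ) ≫ coindTrace U B := by
  ext f
  show φ.hom ((coindTrace U A).hom f) = (coindTrace U B).hom _
  rw [coindTrace_apply, coindTrace_apply, map_sum]
  refine Finset.sum_congr rfl fun q _ => ?_
  induction q using QuotientGroup.induction_on with
  | H g =>
    rw [traceTerm_mk, traceTerm_mk, Rep.hom_comm_apply]
    rfl

end Trace

/-! ### The corestriction -/

section Cores

variable (𝒰 : LevelSys G) (U : Subgroup G) (hU : ∃ N ∈ 𝒰.sets, N ≤ U)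

include hU in
lemma finiteIndex_of_level : U.FiniteIndex := by
  obtain ⟨N, hN, hNU⟩ := hU
  have := 𝒰.finiteIndex N hN
  exact Subgroup.finiteIndex_of_le hNU

/-- Restriction is the unit followed by the Shapiro map, on cochains. -/
lemma lvlRes_eq_unit_shapiro (A : Rep.{u} k G) :
    lvlRes U.subtype (𝒰.restrict_compat U hU) A
      = lvlMap 𝒰 (coindUnit U A) ≫ shapiroMap 𝒰 U hU (Rep.res U.subtype A) := by
  ext n x : 3
  apply Subtype.ext
  funext g
  show x.1 (U.subtype ∘ g) = A.ρ 1 (x.1 _)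
  rw [map_one]
  rfl

lemma lvlMap_unit_trace [U.FiniteIndex] (A : Rep.{u} k G) :
    lvlMap 𝒰 (coindUnit U A) ≫ lvlMap 𝒰 (coindTrace U A)
      = U.index • 𝟙 (lvlComplex 𝒰 A) := by
  ext n x : 3
  apply Subtype.ext
  funext g
  show (coindTrace U A).hom ((coindUnit U A).hom (x.1 _)) = _
  rw [coindTrace_coindUnit]
  simp only [HomologicalComplex.nsmul_f_apply, HomologicalComplex.id_f, ModuleCat.hom_nsmul,
    ModuleCat.hom_id, LinearMap.smul_apply, LinearMap.id_coe, id_eq]
  rfl

/-- The corestriction `Hⁿ(U; Res A) → Hⁿ(G; A)`: the inverse of the Shapiro isomorphism followed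
by the trace. -/
noncomputable def coresMap (hS : ShapiroStatement.{u}) (A : Rep.{u} k G) (n : ℕ) :
    lvlH (𝒰.restrict U hU) (Rep.res U.subtype A) n ⟶ lvlH 𝒰 A n :=
  haveI := finiteIndex_of_level 𝒰 U hU
  (@asIso _ _ _ _ _ (shapiro_all 𝒰 U hU hS (Rep.res U.subtype A) n)).inv ≫
    HomologicalComplex.homologyMap (lvlMap 𝒰 (coindTrace U A)) n

end Cores

/-- **SH-6** Corestriction on level cohomology, from Shapiro's lemma. -/
theorem cores (hS : ShapiroStatement.{u}) : CoresStatement.{u} := by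
  intro k G _ _ 𝒰 U hU
  have := finiteIndex_of_level 𝒰 U hU
  refine ⟨coresMap 𝒰 U hU hS, fun A _ n => ?_, fun {A B} f n => ?_⟩
  · have hiso := shapiro_all 𝒰 U hU hS (Rep.res U.subtype A) n
    unfold coresMap
    rw [lvlRes_eq_unit_shapiro, HomologicalComplex.homologyMap_comp, Category.assoc]
    rw [← Category.assoc (HomologicalComplex.homologyMap (shapiroMap 𝒰 U hU _) n)]
    rw [asIso_inv, IsIso.hom_inv_id, Category.id_comp,
      ← HomologicalComplex.homologyMap_comp, lvlMap_unit_trace]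
    have h := (HomologicalComplex.homologyFunctor (ModuleCat.{u} k) (ComplexShape.up ℕ) n).map_nsmul
      (f := 𝟙 (lvlComplex 𝒰 A)) (n := U.index)
    rw [CategoryTheory.Functor.map_id] at h
    exact h
  · have hisoA := shapiro_all 𝒰 U hU hS (Rep.res U.subtype A) n
    have hisoB := shapiro_all 𝒰 U hU hS (Rep.res U.subtype B) n
    unfold coresMap
    rw [Category.assoc, ← HomologicalComplex.homologyMap_comp, ← lvlMap_comp,
      coindTrace_natural, lvlMap_comp, HomologicalComplex.homologyMap_comp,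
      ← Category.assoc, ← Category.assoc]
    congr 1
    rw [asIso_inv, asIso_inv, IsIso.inv_comp_eq, ← Category.assoc, IsIso.eq_comp_inv]
    show HomologicalComplex.homologyMap _ n ≫ HomologicalComplex.homologyMap _ n
      = HomologicalComplex.homologyMap _ n ≫ HomologicalComplex.homologyMap _ n
    rw [← HomologicalComplex.homologyMap_comp, ← HomologicalComplex.homologyMap_comp,
      shapiroMap_natural]

end Fermat.Agent.H30.CFT
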