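import Mathlib

/-!
# P-CFT / FR-SHAP, piece SH-7: `k[G/U] ≅ Coind_U^G k` for a subgroup of finite index   (helper30)

For a subgroup `U` of finite index of a group `G` the permutation representation on the left
cosets `G ⧸ U` is isomorphic to the representation coinduced from the trivial representation of
`U`: the basis vector `x U` corresponds to the indicator function of the right coset `U x⁻¹`,
i.e. to `y ↦ [y * x ∈ U]`.

* `coindTrivialLinearEquiv U : (G ⧸ U → k) ≃ₗ[k] coindV U.subtype (trivial k U k)`,
  `F ↦ (y ↦ F (y⁻¹ U))`;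
* `ofMulActionQuotientEquiv U`, `ofMulActionQuotientIso U :
    Rep.ofMulAction k G (G ⧸ U) ≅ Rep.coind U.subtype (Rep.trivial k U k)`;
* `ofMulActionQuotientIso_hom_single`: the image of `single (x U) r` is `y ↦ if y * x ∈ U then r
  else 0`.
-/

set_option autoImplicit false

noncomputable section

universe u

open CategoryTheory

namespace Fermat.Agent.H30.CFT

variable {k G : Type u} [CommRing k] [Group G] (U : Subgroup G)

/-- The trivial representation of `U` on `k`. -/
abbrev trivRep : Representation k ↥U k := Representation.trivial k ↥U k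

lemma mk_inv_mul_mem (u : ↥U) (y : G) :
    (QuotientGroup.mk ((u : G) * y)⁻¹ : G ⧸ U) = QuotientGroup.mk y⁻¹ := by
  rw [mul_inv_rev, QuotientGroup.mk_mul_of_mem _ (U.inv_mem u.2)]

lemma inv_out_rel (x : G) :
    ∃ u : ↥U, ((QuotientGroup.mk x : G ⧸ U).out)⁻¹ = (u : G) * x⁻¹ := by
  obtain ⟨h, hh⟩ := QuotientGroup.mk_out_eq_mul U x
  refine ⟨h⁻¹, ?_⟩
  rw [hh]
  simp

/-- Functions on `G ⧸ U` are the left-`U`-invariant functions on `G`, `F ↦ (y ↦ F (y⁻¹ U))`. -/
def coindTrivialLinearEquiv :
    (G ⧸ U → k) ≃ₗ[k] ↥(Representation.coindV U.subtype (trivRep (k := k) U)) where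
  toFun F := ⟨fun y => F (QuotientGroup.mk y⁻¹), by
    intro u y
    simp only [Subgroup.coe_subtype, Representation.trivial_apply]
    rw [mk_inv_mul_mem]⟩
  map_add' F₁ F₂ := by
    ext y
    rfl
  map_smul' c F := by
    ext y
    rfl
  invFun f := fun q => f.1 (q.out)⁻¹
  left_inv F := by
    funext q
    simp
  right_inv f := by
    ext y
    obtain ⟨u, hu⟩ := inv_out_rel U y⁻¹
    show f.1 ((QuotientGroup.mk y⁻¹ : G ⧸ U).out)⁻¹ = f.1 y
    rw [hu, inv_inv]
    have := f.2 u y
    simpa using this

@[simp]
lemma coindTrivialLinearEquiv_apply (F : G ⧸ U → k) (y : G) :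
    (coindTrivialLinearEquiv (k := k) U F).1 y = F (QuotientGroup.mk y⁻¹) := rfl

variable [U.FiniteIndex]

/-- The underlying linear equivalence of `ofMulActionQuotientEquiv`. -/
def ofMulActionQuotientLinearEquiv :
    MonoidAlgebra k (G ⧸ U) ≃ₗ[k] ↥(Representation.coindV U.subtype (trivRep (k := k) U)) :=
  haveI : Finite (G ⧸ U) := Subgroup.finite_quotient_of_finiteIndex
  (MonoidAlgebra.coeffLinearEquiv k).trans
    ((Finsupp.linearEquivFunOnFinite k k (G ⧸ U)).trans (coindTrivialLinearEquiv U))

open scoped Classical in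
lemma ofMulActionQuotientLinearEquiv_single (x : G) (r : k) (y : G) :
    (ofMulActionQuotientLinearEquiv (k := k) U
      (MonoidAlgebra.single (QuotientGroup.mk x : G ⧸ U) r)).1 y =
      if y * x ∈ U then r else 0 := by
  have : Finite (G ⧸ U) := Subgroup.finite_quotient_of_finiteIndex
  show (MonoidAlgebra.single (QuotientGroup.mk x : G ⧸ U) r).coeff (QuotientGroup.mk y⁻¹) = _
  rw [MonoidAlgebra.coeff_single, Finsupp.single_apply]
  congr 1
  rw [eq_iff_iff, QuotientGroup.eq]
  constructor
  · intro h
    have := U.inv_mem h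
    simpa using this
  · intro h
    have := U.inv_mem h
    simpa using this

/-- **SH-7.** `k[G ⧸ U]` is the representation coinduced from the trivial representation of
`U`. -/
def ofMulActionQuotientEquiv :
    Representation.Equiv (Representation.ofMulAction k G (G ⧸ U))
      (Representation.coind U.subtype (trivRep (k := k) U)) :=
  .mk (ofMulActionQuotientLinearEquiv U) fun g => by
    classical
    ext q y
    induction q using QuotientGroup.induction_on with
    | H x =>
      show (ofMulActionQuotientLinearEquiv (k := k) U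
          (Representation.ofMulAction k G (G ⧸ U) g
            (MonoidAlgebra.single (QuotientGroup.mk x : G ⧸ U) 1))).1 y =
        (ofMulActionQuotientLinearEquiv (k := k) U
          (MonoidAlgebra.single (QuotientGroup.mk x : G ⧸ U) 1)).1 (y * g)
      rw [Representation.ofMulAction_single]
      have hsm : g • (QuotientGroup.mk x : G ⧸ U) = QuotientGroup.mk (g * x) := rfl
      rw [hsm, ofMulActionQuotientLinearEquiv_single, ofMulActionQuotientLinearEquiv_single,
        mul_assoc]

/-- **SH-7.** `Rep.ofMulAction k G (G ⧸ U) ≅ Coind_U^G k`. -/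
def ofMulActionQuotientIso :
    Rep.ofMulAction k G (G ⧸ U) ≅ Rep.coind U.subtype (Rep.trivial k ↥U k) :=
  Rep.mkIso (ofMulActionQuotientEquiv U)

open scoped Classical in
/-- The basis vector `x U` corresponds to the indicator function `y ↦ [y * x ∈ U]`. -/
lemma ofMulActionQuotientIso_hom_single (x : G) (r : k) (y : G) :
    ((ofMulActionQuotientIso (k := k) U).hom.hom
      (MonoidAlgebra.single (QuotientGroup.mk x : G ⧸ U) r)).1 y =
      if y * x ∈ U then r else 0 :=
  ofMulActionQuotientLinearEquiv_single U x r y

end Fermat.Agent.H30.CFT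

end
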