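import Fermat.Agent.H97.Shap.Interfaces
import Fermat.Agent.H30.CFT.CoindTrivial

/-!
# P-CFT / FR-SHAP, SH-7 (row 610): `PermCoindStatement`   (helper30)

`k[G/U] ≅ Coind_U^G k` for a subgroup `U` of finite index; the isomorphism is
`Fermat.Agent.H30.CFT.ofMulActionQuotientIso` (`single (x U) r ↦ (y ↦ if y * x ∈ U then r else 0)`).
-/

set_option autoImplicit false

universe u

namespace Fermat.Agent.H30.CFT

/-- **SH-7** The permutation module on `G/U` is coinduced from the trivial module. -/
theorem permCoind : Fermat.Agent.H97.Shap.PermCoindStatement.{u} :=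
  fun U _ => ⟨ofMulActionQuotientIso U⟩

end Fermat.Agent.H30.CFT
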