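import Fermat.Agent.H24.Tate.SplitInterfaces
import Fermat.Agent.H24.Tate.Assembly2

/-!
# P-CFT / TATE-SPLIT-B2 (row 590): `H¹(S, I_G)`   (helper30)

For a finite group `G` and a subgroup `S`, `H¹(S, I_G)` is generated by the class of the cocycle
`s ↦ s - 1`, and this class is killed by `#S`.

* generation: a cocycle `f : S → I_G` is a coboundary in `ℤ[G]` (the regular representation is
  cohomologically trivial), `f s = s y - y`; with `n = ε(y)` the element `y - n · 1` lies in
  `I_G` and `f - n · (s ↦ s - 1)` is its coboundary;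
* `#S · (s - 1) = s z - z` for `z = #S · 1 - ∑_{t ∈ S} t ∈ I_G`.

Main result: `augH1 : Fermat.Agent.H24.AugH1Statement`.
-/

set_option autoImplicit false

noncomputable section

open CategoryTheory groupCohomology

namespace Fermat.Agent.H30.CFT

open Fermat.Agent.H24

attribute [local instance 10000] Rep.hV2

variable (G : Type) [Group G] [Fintype G] (S : Subgroup G)

/-- Every `1`-cocycle of `S` with values in `ℤ[G]` is a coboundary. -/
lemma cocycle_leftRegular_coboundary
    (F : cocycles₁ (Rep.res S.subtype (Rep.leftRegular ℤ G))) :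
    (F : S → MonoidAlgebra ℤ G) ∈ coboundaries₁ (Rep.res S.subtype (Rep.leftRegular ℤ G)) := by
  classical
  let _ : Fintype S := Fintype.ofFinite S
  have h1 : Limits.IsZero (tateCohomology (Rep.res S.subtype (Rep.leftRegular ℤ G)) 1) :=
    leftRegularTrivialStatement G 1 S
  have h2 := (Fermat.Agent.H93.Tate.isZero_tate_one_iff _).mp h1
  exact (Fermat.Agent.H93.Tate.isZero_groupCohomology_one_iff _).mp h2 F

/-- A cocycle with values in `I_G`, viewed in `ℤ[G]`. -/
def augCocycleLift (f : cocycles₁ (Rep.res S.subtype (augRep G))) :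
    cocycles₁ (Rep.res S.subtype (Rep.leftRegular ℤ G)) :=
  ⟨fun s => ((f s : AugV G) : MonoidAlgebra ℤ G), by
    rw [mem_cocycles₁_iff]
    intro s t
    have h := (mem_cocycles₁_iff (A := Rep.res S.subtype (augRep G)) f).1 f.2 s t
    have h' := congrArg (fun x : AugV G => (x : MonoidAlgebra ℤ G)) h
    exact h'⟩

/-- The element `y - ε(y) · 1` of the augmentation ideal. -/
def augProj (y : MonoidAlgebra ℤ G) : AugV G :=
  ⟨y - MonoidAlgebra.single 1 (augLin G y), by
    rw [LinearMap.mem_ker, map_sub, augLin_single, sub_self]⟩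

/-- Generation of `H¹(S, I_G)` on the level of cocycles. -/
lemma cocycle_sub_zsmul_mem_coboundaries (f : cocycles₁ (Rep.res S.subtype (augRep G))) :
    ∃ n : ℤ, (f : S → AugV G) - ((n • augCocycle G S : cocycles₁ _) : S → AugV G) ∈
      coboundaries₁ (Rep.res S.subtype (augRep G)) := by
  obtain ⟨y, hy⟩ := cocycle_leftRegular_coboundary G S (augCocycleLift G S f)
  refine ⟨augLin G y, augProj G y, ?_⟩
  funext s
  apply Subtype.ext
  have hys : Representation.leftRegular ℤ G (s : G) y - y = ((f s : AugV G) : MonoidAlgebra ℤ G) :=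
    congrFun hy s
  show ((augRho G (s : G) (augProj G y) - augProj G y : AugV G) : MonoidAlgebra ℤ G) =
    ((f s - (augLin G y) • augGen G (s : G) : AugV G) : MonoidAlgebra ℤ G)
  simp only [AddSubgroupClass.coe_sub, augRho_coe, augProj, map_sub,
    Representation.ofMulAction_single, smul_eq_mul, mul_one, SetLike.val_smul, augGen_coe,
    smul_sub, MonoidAlgebra.smul_single, ← hys]
  abel

omit [Fintype G] in
/-- `#S · (s - 1)` is a coboundary. -/
lemma card_smul_augCocycle_mem_coboundaries [Fintype S] :
    (((Fintype.card S) • augCocycle G S : cocycles₁ _) : S → AugV G) ∈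
      coboundaries₁ (Rep.res S.subtype (augRep G)) := by
  classical
  set NS : MonoidAlgebra ℤ G := ∑ t : S, MonoidAlgebra.single (t : G) (1 : ℤ) with hNS
  have hεNS : augLin G NS = (Fintype.card S : ℤ) := by
    rw [hNS, map_sum]
    simp
  have hinv : ∀ s : S, Representation.leftRegular ℤ G (s : G) NS = NS := by
    intro s
    rw [hNS, map_sum]
    simp only [Representation.ofMulAction_single, smul_eq_mul]
    exact Fintype.sum_equiv (Equiv.mulLeft s) _ _ fun t => rfl
  refine ⟨-augProj G NS, ?_⟩
  funext s
  apply Subtype.ext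
  show ((augRho G (s : G) (-augProj G NS) - -augProj G NS : AugV G) : MonoidAlgebra ℤ G) =
    (((Fintype.card S) • augGen G (s : G) : AugV G) : MonoidAlgebra ℤ G)
  simp only [map_neg, sub_neg_eq_add, NegMemClass.coe_neg, AddMemClass.coe_add,
    augRho_coe, augProj, map_sub, hinv s, hεNS, Representation.ofMulAction_single, smul_eq_mul,
    mul_one, SetLike.val_smul_of_tower, augGen_coe, smul_sub, MonoidAlgebra.smul_single,
    nsmul_eq_mul]
  abel

/-- **SPLIT-B2** `H¹(S, I_G)` is generated by the class of `s ↦ s - 1`, which is killed by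
`#S`. -/
theorem augH1 : AugH1Statement := by
  intro G _ _ S
  classical
  let _ : Fintype S := Fintype.ofFinite S
  constructor
  · intro x
    induction x using H1_induction_on with
    | h f =>
      obtain ⟨n, hn⟩ := cocycle_sub_zsmul_mem_coboundaries G S f
      refine ⟨n, ?_⟩
      have h1 : H1π (Rep.res S.subtype (augRep G)) f =
          H1π (Rep.res S.subtype (augRep G)) (n • augCocycle G S) :=
        (H1π_eq_iff f (n • augCocycle G S)).2 hn
      rw [h1, augClass, map_zsmul]
  · rw [Nat.card_eq_fintype_card, augClass, ← map_nsmul]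
    exact (H1π_eq_zero_iff _).2 (card_smul_augCocycle_mem_coboundaries G S)

end Fermat.Agent.H30.CFT

end
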