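import Fermat.Agent.H24.Tate.Interfaces

/-!
# P-CFT / TATE-IND (row 482), part 1: the function module and its elementary properties

For a finite group `G` and an abelian group `V`, `funRep G V` is the representation of `G` on the
functions `G → V` by right translation, `(g • f) x = f (x * g)` (all `ℤ`-module structures are the
canonical ones).  For every subgroup `S ≤ G` it
satisfies the elementary predicates `P0` (`Ĥ⁰ = 0`) and `Pm1` (`Ĥ⁻¹ = 0`) of the interface:
coset representatives split every function into pieces on which `S` acts by translation.
-/

set_option autoImplicit false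

noncomputable section

open CategoryTheory

namespace Fermat.Agent.H30.CFT

open Fermat.Agent.H24

/-- The representation of `G` on functions `G → V` by right translation. -/
def funRep (G : Type) [Group G] (V : Type) [AddCommGroup V] :
    Representation ℤ G (G → V) where
  toFun g := LinearMap.funLeft ℤ V (fun x : G => x * g)
  map_one' := by
    ext f x
    simp [LinearMap.funLeft]
  map_mul' g h := by
    ext f x
    simp [LinearMap.funLeft, mul_assoc]

@[simp]
lemma funRep_apply {G : Type} [Group G] {V : Type} [AddCommGroup V]
    (g : G) (f : G → V) (x : G) : funRep G V g f x = f (x * g) := rfl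

section Cosets

variable {G : Type} [Group G] (S : Subgroup G)

/-- The chosen representative of the left coset `x S`. -/
def cosetRep (x : G) : G := (QuotientGroup.mk x : G ⧸ S).out

lemma cosetRep_mul_mem (x : G) {g : G} (hg : g ∈ S) : cosetRep S (x * g) = cosetRep S x := by
  unfold cosetRep
  rw [QuotientGroup.mk_mul_of_mem x hg]

lemma inv_mul_cosetRep_mem (x : G) : x⁻¹ * cosetRep S x ∈ S := by
  obtain ⟨h, hh⟩ := QuotientGroup.mk_out_eq_mul S x
  unfold cosetRep
  rw [hh]
  simp

lemma cosetRep_inv_mul_mem (x : G) : (cosetRep S x)⁻¹ * x ∈ S := by
  have := S.inv_mem (inv_mul_cosetRep_mem S x)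
  simpa using this

lemma cosetRep_cosetRep (x : G) : cosetRep S (cosetRep S x) = cosetRep S x := by
  unfold cosetRep
  rw [QuotientGroup.out_eq']

end Cosets

section Elementary

variable {G : Type} [Group G] [Fintype G] {V : Type} [AddCommGroup V]

open scoped Classical in
lemma normOn_funRep_apply (S : Subgroup G) (b : G → V) (x : G) :
    normOn (funRep G V) S b x = ∑ g ∈ Finset.univ.filter (fun g : G => g ∈ S), b (x * g) := by
  unfold normOn
  rw [Finset.sum_apply]
  rfl

open scoped Classical in
/-- The sum over `g ∈ S` of a function supported at the unique `g` with `x * g = cosetRep x`. -/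
lemma sum_filter_rep (S : Subgroup G) (x : G) (c : V) :
    ∑ g ∈ Finset.univ.filter (fun g : G => g ∈ S),
      (if x * g = cosetRep S x then c else 0) = c := by
  rw [Finset.sum_eq_single (x⁻¹ * cosetRep S x)]
  · simp
  · intro g _ hg
    rw [if_neg]
    intro h
    apply hg
    rw [← h]
    simp
  · intro h
    exfalso
    apply h
    simp [inv_mul_cosetRep_mem S x]

/-- `Ĥ⁰(S, Map(G, V)) = 0`, elementary form. -/
theorem p0_funRep (S : Subgroup G) : P0 (funRep G V) S := by
  classical
  intro a ha
  refine ⟨fun x => if x = cosetRep S x then a x else 0, ?_⟩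
  funext x
  rw [normOn_funRep_apply]
  have hax : ∀ g ∈ S, a (x * g) = a x := by
    intro g hg
    have := congrFun (ha g hg) x
    simpa using this
  have : ∀ g ∈ Finset.univ.filter (fun g : G => g ∈ S),
      (if x * g = cosetRep S (x * g) then a (x * g) else 0) =
        (if x * g = cosetRep S x then a x else 0) := by
    intro g hg
    have hg' : g ∈ S := (Finset.mem_filter.mp hg).2
    rw [cosetRep_mul_mem S x hg', hax g hg']
  rw [Finset.sum_congr rfl this]
  exact sum_filter_rep S x (a x)

/-- `Ĥ⁻¹(S, Map(G, V)) = 0`, elementary form. -/
theorem pm1_funRep (S : Subgroup G) : Pm1 (funRep G V) S := by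
  classical
  intro a ha
  set b : G → G → V := fun g x => if x = cosetRep S x then a (x * g⁻¹) else 0 with hb
  have key : a = ∑ g ∈ Finset.univ.filter (fun g : G => g ∈ S), (funRep G V g (b g) - b g) := by
    funext x
    rw [Finset.sum_apply]
    simp only [Pi.sub_apply, funRep_apply, Finset.sum_sub_distrib]
    have h1 : ∑ g ∈ Finset.univ.filter (fun g : G => g ∈ S), b g (x * g) = a x := by
      have : ∀ g ∈ Finset.univ.filter (fun g : G => g ∈ S),
          b g (x * g) = (if x * g = cosetRep S x then a x else 0) := by
        intro g hg
        have hg' : g ∈ S := (Finset.mem_filter.mp hg).2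
        simp only [hb]
        rw [cosetRep_mul_mem S x hg']
        simp
      rw [Finset.sum_congr rfl this]
      exact sum_filter_rep S x (a x)
    have h2 : ∑ g ∈ Finset.univ.filter (fun g : G => g ∈ S), b g x = 0 := by
      by_cases hx : x = cosetRep S x
      · have h3 : ∀ g ∈ Finset.univ.filter (fun g : G => g ∈ S), b g x = a (x * g⁻¹) := by
          intro g _
          simp only [hb]
          rw [if_pos hx]
        rw [Finset.sum_congr rfl h3]
        have h4 := congrFun ha x
        rw [normOn_funRep_apply] at h4
        rw [← h4.trans (Pi.zero_apply x)]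
        refine Finset.sum_nbij' (fun g => g⁻¹) (fun g => g⁻¹) ?_ ?_ ?_ ?_ ?_
        · intro g hg
          simpa using S.inv_mem (Finset.mem_filter.mp hg).2
        · intro g hg
          simpa using S.inv_mem (Finset.mem_filter.mp hg).2
        · intro g _
          simp
        · intro g _
          simp
        · intro g _
          rfl
      · apply Finset.sum_eq_zero
        intro g _
        simp only [hb]
        rw [if_neg hx]
    rw [h1, h2, sub_zero]
  rw [key]
  refine AddSubgroup.sum_mem _ fun g hg => ?_
  refine AddSubgroup.subset_closure ?_
  exact ⟨g, (Finset.mem_filter.mp hg).2, b g, rfl⟩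

end Elementary

end Fermat.Agent.H30.CFT

end
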